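import Mathlib
import Fermat.Prelude.Def_EllipticCurve_FrobeniusTrace

set_option autoImplicit false

/-!
Existence of Frobenius elements in the absolute Galois group of `ℚ`:
for every prime `ℓ` there are a valuation subring `A` of `AlgebraicClosure ℚ` lying over `ℓ`
and `σ` with `A.IsFrobeniusAt σ ℓ` (`Fermat.Agent.S54.exists_isFrobeniusAt`).
-/

namespace Fermat.Agent.S54

section General

open Finset Polynomial

variable {Ω : Type*} [Field Ω]

/-- Horner sums of an integral relation are integral. -/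
theorem isIntegral_horner (x : Ω) (c : ℕ → ℤ) (n : ℕ)
    (h : ∑ i ∈ range n, (c i : Ω) * x ^ i = 0) (m k : ℕ) (hmk : m + k = n) :
    IsIntegral ℤ (∑ i ∈ range k, (c (m + i) : Ω) * x ^ i) := by
  rcases Nat.eq_zero_or_pos n with hn | hn
  · have hk : k = 0 := by omega
    subst hk
    simpa using isIntegral_zero
  set H : Ω := ∑ i ∈ range k, (c (m + i) : Ω) * x ^ i with hH
  -- the relation split at `m`
  have hsplit : H * x ^ m = - ∑ i ∈ range m, (c i : Ω) * x ^ i := by
    have h1 : ∑ i ∈ range n, (c i : Ω) * x ^ i =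
        ∑ i ∈ range m, (c i : Ω) * x ^ i + ∑ i ∈ range k, (c (m + i) : Ω) * x ^ (m + i) := by
      rw [← hmk, Finset.sum_range_add]
    have h2 : ∑ i ∈ range k, (c (m + i) : Ω) * x ^ (m + i) = H * x ^ m := by
      rw [hH, Finset.sum_mul]
      refine Finset.sum_congr rfl fun i _ => ?_
      rw [pow_add]; ring
    rw [h1, h2] at h
    exact eq_neg_of_add_eq_zero_right h
  let M : Submodule ℤ Ω := Submodule.span ℤ ((fun j : ℕ => x ^ j) '' (Set.Iio n))
  have hpow : ∀ j, j < n → x ^ j ∈ M := fun j hj =>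
    Submodule.subset_span ⟨j, hj, rfl⟩
  have hM0 : M ≠ ⊥ := by
    intro h0
    have h1 : (x ^ 0 : Ω) ∈ M := hpow 0 hn
    rw [h0, Submodule.mem_bot, pow_zero] at h1
    exact one_ne_zero h1
  have hMfg : M.FG := Submodule.fg_span ((Set.finite_Iio n).image _)
  refine isIntegral_of_smul_mem_submodule M hM0 hMfg H ?_
  intro y hy
  induction hy using Submodule.span_induction with
  | mem y hy =>
    obtain ⟨j, hj, rfl⟩ := hy
    have hj : j < n := hj
    show H * x ^ j ∈ M
    rcases lt_or_ge j m with hjm | hjm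
    · rw [hH, Finset.sum_mul]
      refine Submodule.sum_mem _ fun i hi => ?_
      have hi : i < k := Finset.mem_range.mp hi
      have : (c (m + i) : Ω) * x ^ i * x ^ j = (c (m + i)) • x ^ (i + j) := by
        rw [zsmul_eq_mul, pow_add]; ring
      rw [this]
      exact Submodule.smul_mem _ _ (hpow _ (by omega))
    · obtain ⟨t, rfl⟩ := Nat.exists_eq_add_of_le hjm
      rw [pow_add, ← mul_assoc, hsplit, neg_mul, Finset.sum_mul]
      refine Submodule.neg_mem _ (Submodule.sum_mem _ fun i hi => ?_)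
      have hi : i < m := Finset.mem_range.mp hi
      have : (c i : Ω) * x ^ i * x ^ t = (c i) • x ^ (i + t) := by
        rw [zsmul_eq_mul, pow_add]; ring
      rw [this]
      exact Submodule.smul_mem _ _ (hpow _ (by omega))
  | zero => simp
  | add y z _ _ hy hz => rw [smul_add]; exact Submodule.add_mem _ hy hz
  | smul a y _ hy => rw [smul_comm]; exact Submodule.smul_mem _ _ hy

theorem mem_of_isIntegral_int (V : ValuationSubring Ω) {y : Ω} (hy : IsIntegral ℤ y) : y ∈ V := by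
  have h : IsIntegral V y := hy.tower_top
  obtain ⟨y', rfl⟩ := (IsIntegrallyClosed.isIntegral_iff (R := V) (K := Ω)).mp h
  exact y'.2

theorem dvd_of_valuation_intCast_lt_one (V : ValuationSubring Ω) {ℓ : ℕ} (hℓ : ℓ.Prime)
    (hV : (ℓ : Ω) ∈ V.nonunits) (a : ℤ) (ha : V.valuation (a : Ω) < 1) : (ℓ : ℤ) ∣ a := by
  by_contra hdiv
  have hcop : IsCoprime a (ℓ : ℤ) := by
    have := (Int.prime_iff_natAbs_prime.mpr (by simpa using hℓ)).coprime_iff_not_dvd.mpr hdiv
    exact this.symm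
  obtain ⟨u, w, huw⟩ := hcop
  have hcast : ((u : Ω) * a + w * ℓ) = 1 := by exact_mod_cast congrArg (Int.cast (R := Ω)) huw
  have hu : V.valuation (u : Ω) ≤ 1 := (V.valuation_le_one_iff _).mpr (intCast_mem V u)
  have hw : V.valuation (w : Ω) ≤ 1 := (V.valuation_le_one_iff _).mpr (intCast_mem V w)
  have hl : V.valuation (ℓ : Ω) < 1 := V.mem_nonunits_iff.mp hV
  have h1 : V.valuation ((u : Ω) * a) < 1 := by
    rw [map_mul]
    exact lt_of_le_of_lt (mul_le_of_le_one_left' hu) ha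
  have h2 : V.valuation ((w : Ω) * ℓ) < 1 := by
    rw [map_mul]
    exact lt_of_le_of_lt (mul_le_of_le_one_left' hw) hl
  have h3 : V.valuation ((u : Ω) * a + w * ℓ) < 1 :=
    lt_of_le_of_lt (V.valuation.map_add _ _) (max_lt h1 h2)
  rw [hcast, map_one] at h3
  exact lt_irrefl _ h3

theorem exists_integral_frac [CharZero Ω] (V : ValuationSubring Ω) {ℓ : ℕ} (hℓ : ℓ.Prime)
    (hV : (ℓ : Ω) ∈ V.nonunits) (x : Ω) (hxalg : IsAlgebraic ℤ x) (hx : x ∈ V) :
    ∃ b s : Ω, IsIntegral ℤ b ∧ IsIntegral ℤ s ∧ V.valuation s = 1 ∧ x * s = b := by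
  obtain ⟨p, hp0, hpx⟩ := hxalg
  have hp' : aeval x p.primPart = 0 := Polynomial.aeval_primPart_eq_zero hp0 hpx
  have hprim : p.primPart.IsPrimitive := p.isPrimitive_primPart
  set q := p.primPart with hq
  set n := q.natDegree + 1 with hn
  set c : ℕ → ℤ := fun i => q.coeff i with hc
  have hsum : ∑ i ∈ range n, (c i : Ω) * x ^ i = 0 := by
    rw [← hp', Polynomial.aeval_eq_sum_range]
    refine Finset.sum_congr rfl fun i _ => ?_
    rw [zsmul_eq_mul]
  set H : ℕ → Ω := fun m => ∑ i ∈ range (n - m), (c (m + i) : Ω) * x ^ i with hH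
  have hHint : ∀ m, m ≤ n → IsIntegral ℤ (H m) := fun m hm =>
    isIntegral_horner x c n hsum m (n - m) (by omega)
  have hH0 : H 0 = 0 := by
    simp only [hH, Nat.sub_zero, zero_add]
    exact hsum
  have hrec : ∀ m, m < n → H m = (c m : Ω) + x * H (m + 1) := by
    intro m hm
    simp only [hH]
    have : n - m = (n - (m + 1)) + 1 := by omega
    rw [this, Finset.sum_range_succ', Finset.mul_sum, add_comm]
    congr 1
    · simp
    · refine Finset.sum_congr rfl fun i _ => ?_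
      rw [pow_succ, show m + (i + 1) = m + 1 + i by ring]
      ring
  have hxv : V.valuation x ≤ 1 := (V.valuation_le_one_iff _).mpr hx
  have hHv : ∀ m, m ≤ n → V.valuation (H m) ≤ 1 := fun m hm =>
    (V.valuation_le_one_iff _).mpr (mem_of_isIntegral_int V (hHint m hm))
  have hex : ∃ m, m ≤ n ∧ V.valuation (H m) = 1 := by
    by_contra hne
    push Not at hne
    have hlt : ∀ m, m ≤ n → V.valuation (H m) < 1 := fun m hm =>
      lt_of_le_of_ne (hHv m hm) (hne m hm)
    have hdvd : ∀ i, (ℓ : ℤ) ∣ q.coeff i := by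
      intro i
      rcases lt_or_ge i n with hi | hi
      · apply dvd_of_valuation_intCast_lt_one V hℓ hV
        have hci : (c i : Ω) = H i - x * H (i + 1) := by rw [hrec i hi]; ring
        show V.valuation (c i : Ω) < 1
        rw [hci]
        refine lt_of_le_of_lt (V.valuation.map_sub _ _) (max_lt (hlt i hi.le) ?_)
        rw [map_mul]
        exact lt_of_le_of_lt (mul_le_of_le_one_left' hxv) (hlt (i + 1) hi)
      · rw [Polynomial.coeff_eq_zero_of_natDegree_lt (by omega)]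
        exact dvd_zero _
    have hC : Polynomial.C (ℓ : ℤ) ∣ q := (Polynomial.C_dvd_iff_dvd_coeff _ _).mpr hdvd
    have hunit : IsUnit (ℓ : ℤ) := hprim _ hC
    rw [Int.isUnit_iff_natAbs_eq, Int.natAbs_natCast] at hunit
    exact hℓ.one_lt.ne' hunit
  obtain ⟨m, hmn, hm1⟩ := hex
  rcases Nat.eq_zero_or_pos m with rfl | hmpos
  · rw [hH0, map_zero] at hm1
    exact absurd hm1 zero_ne_one
  obtain ⟨m', rfl⟩ := Nat.exists_eq_succ_of_ne_zero hmpos.ne'
  refine ⟨H m' - (c m' : Ω), H (m' + 1), ?_, hHint _ hmn, hm1, ?_⟩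
  · exact (hHint m' (by omega)).sub isIntegral_algebraMap
  · rw [hrec m' (by omega)]; ring

end General

section Qbar

open scoped Pointwise

theorem algebra_rat_eq :
    (DivisionRing.toRatAlgebra : Algebra ℚ (AlgebraicClosure ℚ)) = AlgebraicClosure.instAlgebra ℚ :=
  Subsingleton.elim _ _

instance instIsAlgebraicQbar : Algebra.IsAlgebraic ℚ (AlgebraicClosure ℚ) := by
  rw [algebra_rat_eq]; infer_instance

instance instIsAlgClosureQbar : IsAlgClosure ℚ (AlgebraicClosure ℚ) :=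
  ⟨inferInstance, instIsAlgebraicQbar⟩

local notation "Ω" => AlgebraicClosure ℚ
local notation "Γ" => (AlgebraicClosure ℚ ≃ₐ[ℚ] AlgebraicClosure ℚ)
local notation "B" => integralClosure ℤ (AlgebraicClosure ℚ)

theorem isInvariant_integralClosure : Algebra.IsInvariant ℤ B Γ := by
  refine ⟨fun b hb => ?_⟩
  have h1 : (b : Ω) ∈ IntermediateField.fixedField (⊤ : Subgroup Γ) := fun g => by
    have := congrArg Subtype.val (hb g.1)
    exact this
  rw [InfiniteGalois.fixedField_bot] at h1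
  obtain ⟨q, hq⟩ := IntermediateField.mem_bot.mp h1
  have hqi : IsIntegral ℤ q := by
    have : IsIntegral ℤ (algebraMap ℚ Ω q) := hq ▸ b.2
    exact (isIntegral_algebraMap_iff (algebraMap ℚ Ω).injective).mp this
  obtain ⟨n, hn⟩ := IsIntegrallyClosed.isIntegral_iff.mp hqi
  refine ⟨n, Subtype.ext ?_⟩
  rw [← hq, ← hn]
  simp

theorem isAlgebraic_int (x : Ω) : IsAlgebraic ℤ x :=
  (IsFractionRing.isAlgebraic_iff ℤ ℚ Ω).mpr (Algebra.IsAlgebraic.isAlgebraic x)

theorem exists_valuationSubring_liesOver (ℓ : ℕ) (hℓ : ℓ.Prime) :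
    ∃ V : ValuationSubring Ω, (ℓ : Ω) ∈ V.nonunits := by
  let A : Subring Ω := ⊥
  let l : A := ⟨(ℓ : Ω), natCast_mem A ℓ⟩
  have hI : Ideal.span {l} ≠ ⊤ := by
    intro h
    rw [Ideal.span_singleton_eq_top] at h
    obtain ⟨y, hy⟩ := h.exists_right_inv
    obtain ⟨m, hm⟩ := Subring.mem_bot.mp y.2
    have h1 : ((ℓ : ℤ) : Ω) * (m : Ω) = 1 := by
      have := congrArg Subtype.val hy
      simpa [l, hm] using this
    have h2 : (ℓ : ℤ) * m = 1 := by exact_mod_cast h1
    have h3 : IsUnit (ℓ : ℤ) := IsUnit.of_mul_eq_one _ h2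
    rw [Int.isUnit_iff_natAbs_eq, Int.natAbs_natCast] at h3
    exact hℓ.one_lt.ne' h3
  obtain ⟨V, -, hV⟩ := Ideal.image_subset_nonunits_valuationSubring (Ideal.span {l}) hI
  exact ⟨V, hV ⟨l, Ideal.subset_span rfl, rfl⟩⟩

/-- A Galois element which is a Frobenius modulo the centre of `V` on algebraic integers. -/
theorem exists_frobenius_on_integers (V : ValuationSubring Ω) (ℓ : ℕ) (hℓ : ℓ.Prime)
    (hℓV : (ℓ : Ω) ∈ V.nonunits) :
    ∃ σ : Γ, ∀ b : Ω, IsIntegral ℤ b → V.valuation (σ b - b ^ ℓ) < 1 := by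
  classical
  have hBV : ∀ b : B, (b : Ω) ∈ V := fun b => mem_of_isIntegral_int V b.2
  let ι : B →+* V :=
    { toFun := fun b => ⟨b.1, hBV b⟩
      map_one' := rfl
      map_mul' := fun _ _ => rfl
      map_zero' := rfl
      map_add' := fun _ _ => rfl }
  let Q : Ideal B := (IsLocalRing.maximalIdeal V).comap ι
  have hQprime : Q.IsPrime := Ideal.comap_isPrime ι _
  have hQ : ∀ b : B, b ∈ Q ↔ V.valuation (b : Ω) < 1 := by
    intro b
    rw [Ideal.mem_comap, V.valuation_lt_one_iff]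
    rfl
  let _ : TopologicalSpace B := ⊥
  have : DiscreteTopology B := ⟨rfl⟩
  have : ContinuousSMul Γ B := by
    refine continuousSMul_iff_stabilizer_isOpen.mpr fun b => ?_
    have : (MulAction.stabilizer Γ b : Set Γ) = MulAction.stabilizer Γ (b : Ω) := by
      ext g
      simp only [SetLike.mem_coe, MulAction.mem_stabilizer_iff, Subtype.ext_iff]
      rfl
    rw [this]
    exact stabilizer_isOpen_of_isIntegral (K := ℚ) (L := Ω) b.1
  have := isInvariant_integralClosure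
  let P : Ideal ℤ := Q.under ℤ
  have : Q.LiesOver P := ⟨rfl⟩
  have hchar : CharP (B ⧸ Q) ℓ := by
    refine (CharP.charP_iff_prime_eq_zero hℓ).mpr ?_
    have : ((ℓ : B) : B ⧸ Q) = 0 := by
      rw [Ideal.Quotient.eq_zero_iff_mem, hQ]
      simpa using V.mem_nonunits_iff.mp hℓV
    simpa using this
  have : ExpChar (B ⧸ Q) ℓ := ExpChar.prime hℓ
  have hsurj : Function.Surjective (frobenius (B ⧸ Q) ℓ) := by
    intro y
    obtain ⟨b, rfl⟩ := Ideal.Quotient.mk_surjective y
    obtain ⟨c, hc⟩ := IsAlgClosed.exists_pow_nat_eq (b : Ω) hℓ.pos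
    have hcint : IsIntegral ℤ c := IsIntegral.of_pow hℓ.pos (hc ▸ b.2)
    refine ⟨Ideal.Quotient.mk Q ⟨c, hcint⟩, ?_⟩
    rw [frobenius_def, ← map_pow]
    congr 1
    exact Subtype.ext hc
  let τ : (B ⧸ Q) ≃ₐ[ℤ ⧸ P] (B ⧸ Q) :=
    { RingEquiv.ofBijective (frobenius (B ⧸ Q) ℓ) ⟨frobenius_inj _ _, hsurj⟩ with
      commutes' := fun r => by
        obtain ⟨n, rfl⟩ := Ideal.Quotient.mk_surjective r
        have h1 : (Ideal.Quotient.mk P n) = ((n : ℤ) : ℤ ⧸ P) := by simp
        show frobenius (B ⧸ Q) ℓ (algebraMap (ℤ ⧸ P) (B ⧸ Q) _) = algebraMap (ℤ ⧸ P) (B ⧸ Q) _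
        rw [h1, map_intCast, map_intCast] }
  obtain ⟨⟨σ, hσQ⟩, hσ⟩ := Ideal.Quotient.stabilizerHom_surjective_of_profinite (G := Γ) P Q τ
  refine ⟨σ, fun b hb => ?_⟩
  have h2 := DFunLike.congr_fun hσ (Ideal.Quotient.mk Q ⟨b, hb⟩)
  rw [Ideal.Quotient.stabilizerHom_apply] at h2
  have h3 : Ideal.Quotient.mk Q (σ • (⟨b, hb⟩ : B)) = Ideal.Quotient.mk Q ((⟨b, hb⟩ : B) ^ ℓ) := by
    rw [map_pow]
    exact h2
  rw [Ideal.Quotient.eq, hQ] at h3
  exact h3

/-- Existence of Frobenius elements in the absolute Galois group of `ℚ`. -/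
theorem exists_isFrobeniusAt (ℓ : ℕ) (hℓ : ℓ.Prime) :
    ∃ (A : ValuationSubring Ω) (σ : Γ), A.LiesOverPrime ℓ ∧ A.IsFrobeniusAt σ ℓ := by
  classical
  obtain ⟨V, hℓV⟩ := exists_valuationSubring_liesOver ℓ hℓ
  obtain ⟨σ, hσ⟩ := exists_frobenius_on_integers V ℓ hℓ hℓV
  have hB1 : ∀ b : Ω, IsIntegral ℤ b → V.valuation b ≤ 1 := fun b hb =>
    (V.valuation_le_one_iff _).mpr (mem_of_isIntegral_int V hb)
  have hσint : ∀ b : Ω, IsIntegral ℤ b → IsIntegral ℤ (σ b) := fun b hb => hb.map σ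
  have hσint' : ∀ b : Ω, IsIntegral ℤ b → IsIntegral ℤ (σ.symm b) := fun b hb => hb.map σ.symm
  -- units among integers are preserved
  have hunit : ∀ b : Ω, IsIntegral ℤ b → V.valuation b = 1 → V.valuation (σ b) = 1 := by
    intro b hb hb1
    refine le_antisymm (hB1 _ (hσint b hb)) (not_lt.mp fun hlt => ?_)
    have h1 : V.valuation (b ^ ℓ) < 1 := by
      have : b ^ ℓ = σ b - (σ b - b ^ ℓ) := by ring
      rw [this]
      exact lt_of_le_of_lt (V.valuation.map_sub _ _) (max_lt hlt (hσ b hb))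
    rw [map_pow, hb1, one_pow] at h1
    exact lt_irrefl _ h1
  have hunit' : ∀ b : Ω, IsIntegral ℤ b → V.valuation b = 1 → V.valuation (σ.symm b) = 1 := by
    intro b hb hb1
    refine le_antisymm (hB1 _ (hσint' b hb)) (not_lt.mp fun hlt => ?_)
    have h1 : V.valuation (σ (σ.symm b)) < 1 := by
      have : σ (σ.symm b) = (σ (σ.symm b) - (σ.symm b) ^ ℓ) + (σ.symm b) ^ ℓ := by ring
      rw [this]
      refine lt_of_le_of_lt (V.valuation.map_add _ _) (max_lt (hσ _ (hσint' b hb)) ?_)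
      rw [map_pow]
      exact pow_lt_one' hlt hℓ.ne_zero
    rw [AlgEquiv.apply_symm_apply, hb1] at h1
    exact lt_irrefl _ h1
  have hmem : ∀ x : Ω, x ∈ V → σ x ∈ V := by
    intro x hx
    obtain ⟨b, s, hb, hs, hs1, hxs⟩ := exists_integral_frac V hℓ hℓV x (isAlgebraic_int x) hx
    have h1 : V.valuation (σ x) * V.valuation (σ s) = V.valuation (σ b) := by
      rw [← map_mul, ← map_mul, hxs]
    rw [hunit s hs hs1, mul_one] at h1
    rw [← V.valuation_le_one_iff, h1]
    exact hB1 _ (hσint b hb)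
  have hmem' : ∀ x : Ω, x ∈ V → σ.symm x ∈ V := by
    intro x hx
    obtain ⟨b, s, hb, hs, hs1, hxs⟩ := exists_integral_frac V hℓ hℓV x (isAlgebraic_int x) hx
    have h1 : V.valuation (σ.symm x) * V.valuation (σ.symm s) = V.valuation (σ.symm b) := by
      rw [← map_mul, ← map_mul, hxs]
    rw [hunit' s hs hs1, mul_one] at h1
    rw [← V.valuation_le_one_iff, h1]
    exact hB1 _ (hσint' b hb)
  have hσV : σ ∈ V.decompositionSubgroup ℚ := by
    rw [MulAction.mem_stabilizer_iff]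
    ext x
    rw [ValuationSubring.mem_pointwise_smul_iff_inv_smul_mem]
    constructor
    · intro h
      have := hmem _ h
      rwa [AlgEquiv.smul_def, AlgEquiv.aut_inv, AlgEquiv.apply_symm_apply] at this
    · intro h
      exact hmem' x h
  refine ⟨V, σ, hℓV, hσV, ?_⟩
  intro y
  obtain ⟨x, rfl⟩ := IsLocalRing.residue_surjective y
  rw [← IsLocalRing.ResidueField.residue_smul, ← map_pow, ← sub_eq_zero, ← map_sub,
    IsLocalRing.residue_eq_zero_iff, V.valuation_lt_one_iff]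
  obtain ⟨b, s, hb, hs, hs1, hxs⟩ :=
    exists_integral_frac V hℓ hℓV (x : Ω) (isAlgebraic_int _) x.2
  show V.valuation (σ (x : Ω) - (x : Ω) ^ ℓ) < 1
  have hden : V.valuation (σ s * s ^ ℓ) = 1 := by
    rw [map_mul, map_pow, hunit s hs hs1, hs1, one_pow, one_mul]
  have hkey : (σ (x : Ω) - (x : Ω) ^ ℓ) * (σ s * s ^ ℓ) =
      (σ b - b ^ ℓ) * s ^ ℓ - b ^ ℓ * (σ s - s ^ ℓ) := by
    rw [← hxs, map_mul]; ring
  have hnum : V.valuation ((σ b - b ^ ℓ) * s ^ ℓ - b ^ ℓ * (σ s - s ^ ℓ)) < 1 := by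
    refine lt_of_le_of_lt (V.valuation.map_sub _ _) (max_lt ?_ ?_)
    · rw [map_mul, map_pow, hs1, one_pow, mul_one]
      exact hσ b hb
    · rw [map_mul]
      exact lt_of_le_of_lt (mul_le_of_le_one_left' ((hB1 _ (hb.pow ℓ)))) (hσ s hs)
  rw [← hkey, map_mul, hden, mul_one] at hnum
  exact hnum

end Qbar

end Fermat.Agent.S54
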